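import Fermat.Agent.H18R.Core
import Fermat.Agent.H19.A8
import Fermat.Agent.H26_FreyBasics

/-!
# Residual modularity: FILL, MONO, NEWF, FREY
-/

set_option autoImplicit false
set_option linter.style.haveILetI false
set_option linter.unusedSectionVars false

noncomputable section

namespace Fermat.Agent.H18R

open CongruenceSubgroup ModularFormClass IsLocalRing
open Fermat.Agent.Ell Fermat.Agent.H05
open Fermat.Agent.H19.A8 (RMs sub_val_mem_iff)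

variable {W : WeierstrassCurve ℤ} {p : ℕ} [hp : Fact p.Prime]

/-- **(F1) FILL** (ideal form) -/
theorem isResiduallyModular_of_almost (hΔ : W.Δ ≠ 0) (hirr : W.ModRepIsIrreducible p) {M : ℕ}
    (hM : M ≠ 0) {f : CuspForm (Gamma0 M) 2} (hf : f.IsNormalizedEigenform)
    {𝔪 : Ideal (integralClosure ℤ ℂ)} (h𝔪 : 𝔪.IsMaximal)
    (hp𝔪 : (p : integralClosure ℤ ℂ) ∈ 𝔪) (S : Finset ℕ)
    (h : ∀ ℓ : ℕ, ℓ.Prime → ℓ ∉ S → ∃ a : integralClosure ℤ ℂ, (a : ℂ) = qCoeff f ℓ ∧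
      a - ((W.apOfModel ℓ : ℤ) : integralClosure ℤ ℂ) ∈ 𝔪) :
    W.IsResiduallyModularOfLevel p M :=
  ⟨f, 𝔪, hf, h𝔪, hp𝔪, fun _ hℓ hgood hℓM hℓp =>
    fill_ideal hΔ hirr hM hf h𝔪 hp𝔪 S h hℓ hgood hℓM hℓp⟩

/-- **(F1) FILL** -/
theorem isResiduallyModular_of_RMs (hΔ : W.Δ ≠ 0) (hirr : W.ModRepIsIrreducible p) {M : ℕ}
    (hM : M ≠ 0) {S : Finset ℕ} (h : RMs p M S (fun ℓ => ((W.apOfModel ℓ : ℤ) : ZMod p))) :
    W.IsResiduallyModularOfLevel p M := by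
  obtain ⟨f, 𝔪, hf, h𝔪, hp𝔪, hx⟩ := h
  refine isResiduallyModular_of_almost hΔ hirr hM hf h𝔪 hp𝔪 S fun ℓ hℓ hℓS => ?_
  obtain ⟨x, hx1, hx2⟩ := hx ℓ hℓ hℓS
  exact ⟨x, hx1, (sub_val_mem_iff hp𝔪 rfl).mp hx2⟩

/-- the primes outside of a finite set are good, prime to the level and different from `p` -/
theorem exists_finset (hΔ : W.Δ ≠ 0) {M : ℕ} (hM : M ≠ 0) : ∃ S : Finset ℕ,
    ∀ ℓ : ℕ, ℓ.Prime → ℓ ∉ S → W.IsGoodPrimeFor ℓ ∧ ¬ ℓ ∣ M ∧ ℓ ≠ p := by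
  classical
  refine ⟨insert p (M.primeFactors ∪ W.Δ.natAbs.primeFactors), fun ℓ hℓ hℓS => ⟨fun h => ?_,
    fun h => ?_, fun h => ?_⟩⟩
  · exact hℓS (Finset.mem_insert_of_mem (Finset.mem_union_right _ (Nat.mem_primeFactors.mpr
      ⟨hℓ, Int.natCast_dvd.mp h, Int.natAbs_ne_zero.mpr hΔ⟩)))
  · exact hℓS (Finset.mem_insert_of_mem (Finset.mem_union_left _
      (Nat.mem_primeFactors.mpr ⟨hℓ, h, hM⟩)))
  · exact hℓS (h ▸ Finset.mem_insert_self _ _)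

/-- raising the level of an eigenform -/
theorem exists_raise {M M' : ℕ} [NeZero M] [NeZero M'] (hd : M ∣ M') {f : CuspForm (Gamma0 M) 2}
    (hf : f.IsNormalizedEigenform) :
    ∃ f' : CuspForm (Gamma0 M') 2, f'.IsNormalizedEigenform ∧
      ∀ ℓ : ℕ, ℓ.Prime → ¬ ℓ ∣ M' → qCoeff f' ℓ = qCoeff f ℓ := by
  have hM1 : M * 1 ∣ M' := by rwa [mul_one]
  have h1 : qCoeff (AL.degen one_pos hM1 2 f) 1 = 1 := by
    rw [AL.qCoeff_degen, if_pos (one_dvd _), Nat.div_one, hf.qCoeff_one]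
  have hne : AL.degen one_pos hM1 2 f ≠ 0 := by
    intro h0
    rw [h0] at h1
    have h2 : qCoeff (0 : CuspForm (Gamma0 M') 2) 1 = 0 := by
      have h3 := AL.qCoeff_smul (0 : ℂ) (0 : CuspForm (Gamma0 M') 2) 1
      rwa [zero_smul, zero_mul] at h3
    rw [h2] at h1
    exact zero_ne_one h1
  obtain ⟨g, hg, hga⟩ := AL.exists_eigenform_away (D := 1) hne (a := fun ℓ => qCoeff f ℓ) (by
    intro ℓ hℓ hℓM' _
    have hℓM : ¬ ℓ ∣ M := fun hh => hℓM' (hh.trans hd)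
    rw [← AL.degen_heckeTLin one_pos hM1 2 hℓ hℓM hℓM', AL.eigenform_T hf hℓ hℓM, map_smul])
  exact ⟨g, hg, fun ℓ hℓ hℓM' => hga ℓ hℓ hℓM' hℓ.not_dvd_one⟩

/-- **(F2) MONO** -/
theorem isResiduallyModular_mono (hΔ : W.Δ ≠ 0) (hirr : W.ModRepIsIrreducible p) {M M' : ℕ}
    (h : W.IsResiduallyModularOfLevel p M) (hd : M ∣ M') (hM' : M' ≠ 0) :
    W.IsResiduallyModularOfLevel p M' := by
  have hM : M ≠ 0 := fun h0 => hM' (Nat.eq_zero_of_zero_dvd (h0 ▸ hd))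
  haveI : NeZero M := ⟨hM⟩
  haveI : NeZero M' := ⟨hM'⟩
  obtain ⟨f, 𝔪, hf, h𝔪, hp𝔪, hx⟩ := h
  obtain ⟨f', hf', hff'⟩ := exists_raise hd hf
  obtain ⟨S, hS⟩ := exists_finset (W := W) (p := p) hΔ hM'
  refine isResiduallyModular_of_almost hΔ hirr hM' hf' h𝔪 hp𝔪 S fun ℓ hℓ hℓS => ?_
  obtain ⟨h1, h2, h3⟩ := hS ℓ hℓ hℓS
  obtain ⟨a, ha, ha'⟩ := hx ℓ hℓ h1 (fun hh => h2 (hh.trans hd)) h3
  exact ⟨a, by rw [ha, hff' ℓ hℓ h2], ha'⟩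

/-- **(F3) NEWF** -/
theorem exists_newform_of_isResiduallyModular (hΔ : W.Δ ≠ 0) (hirr : W.ModRepIsIrreducible p)
    {M : ℕ} (hM : M ≠ 0) (h : W.IsResiduallyModularOfLevel p M) :
    ∃ (L : ℕ) (_ : NeZero L) (g : CuspForm (Gamma0 L) 2) (𝔪 : Ideal (integralClosure ℤ ℂ)),
      L ∣ M ∧ g.IsNewform ∧ 𝔪.IsMaximal ∧ (p : integralClosure ℤ ℂ) ∈ 𝔪 ∧
      ∀ ℓ : ℕ, ℓ.Prime → W.IsGoodPrimeFor ℓ → ¬ ℓ ∣ L → ℓ ≠ p →
        ∃ a : integralClosure ℤ ℂ, (a : ℂ) = qCoeff g ℓ ∧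
          a - ((W.apOfModel ℓ : ℤ) : integralClosure ℤ ℂ) ∈ 𝔪 := by
  haveI : NeZero M := ⟨hM⟩
  obtain ⟨f, 𝔪, hf, h𝔪, hp𝔪, hx⟩ := h
  obtain ⟨L, hL, g, hLM, hg, hgf⟩ := TC.exists_newform hM (fun ℓ : TC.Pr M => qCoeff f ℓ) M
    dvd_rfl f hf.ne_zero (by
      rw [TC.mem_simEig]
      intro ℓ
      exact AL.eigenform_T hf ℓ.2.1 ℓ.2.2)
  obtain ⟨S, hS⟩ := exists_finset (W := W) (p := p) hΔ hM
  refine ⟨L, hL, g, 𝔪, hLM, hg, h𝔪, hp𝔪, fun ℓ hℓ hgood hℓL hℓp => ?_⟩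
  refine fill_ideal hΔ hirr (NeZero.ne L) hg.1 h𝔪 hp𝔪 S (fun ℓ hℓ hℓS => ?_) hℓ hgood hℓL hℓp
  obtain ⟨h1, h2, h3⟩ := hS ℓ hℓ hℓS
  obtain ⟨a, ha, ha'⟩ := hx ℓ hℓ h1 h2 h3
  exact ⟨a, by rw [ha]; exact (hgf ⟨ℓ, hℓ, h2⟩).symm, ha'⟩

/-- the level of the newform -/
theorem exists_newform_level (hΔ : W.Δ ≠ 0) (hirr : W.ModRepIsIrreducible p)
    {M : ℕ} (hM : M ≠ 0) (h : W.IsResiduallyModularOfLevel p M) :
    ∃ (L : ℕ) (_ : NeZero L) (g : CuspForm (Gamma0 L) 2) (𝔪 : Ideal (integralClosure ℤ ℂ)),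
      L ∣ M ∧ g.IsNewform ∧ 𝔪.IsMaximal ∧ (p : integralClosure ℤ ℂ) ∈ 𝔪 ∧
      (∀ ℓ : ℕ, ℓ.Prime → W.IsGoodPrimeFor ℓ → ¬ ℓ ∣ L → ℓ ≠ p →
        ∃ a : integralClosure ℤ ℂ, (a : ℂ) = qCoeff g ℓ ∧
          a - ((W.apOfModel ℓ : ℤ) : integralClosure ℤ ℂ) ∈ 𝔪) ∧
      W.IsResiduallyModularOfLevel p L := by
  obtain ⟨L, hL, g, 𝔪, hLM, hg, h𝔪, hp𝔪, hx⟩ :=
    exists_newform_of_isResiduallyModular hΔ hirr hM h
  exact ⟨L, hL, g, 𝔪, hLM, hg, h𝔪, hp𝔪, hx, g, 𝔪, hg.1, h𝔪, hp𝔪, hx⟩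

/-- **two integral models of the same curve** have the same `a_ℓ` at common good primes -/
theorem apOfModel_eq (hΔ : W.Δ ≠ 0) (hirr : W.ModRepIsIrreducible p) {W' : WeierstrassCurve ℤ}
    (hW' : W'.IsIntegralModelOf (WQ W)) {ℓ : ℕ} (hℓ : ℓ.Prime) (hgood : W.IsGoodPrimeFor ℓ)
    (hgood' : W'.IsGoodPrimeFor ℓ) (hℓp : ℓ ≠ p) : W'.apOfModel ℓ = W.apOfModel ℓ := by
  haveI := isElliptic_WQ hΔ
  haveI := H51.isGalois_Qbar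
  obtain ⟨A, hA⟩ := exists_liesOverPrime (AlgebraicClosure ℚ) hℓ
  obtain ⟨φ, hφ⟩ := exists_isFrobeniusAt (L := AlgebraicClosure ℚ) hℓ hA
  have h1 := trace_frob (p := p) hW' (exists_nonscalar_of_irr hΔ hirr) hℓ hgood' hℓp hA hφ
  have h2 := trace_frob (p := p) (isModel_WQ W) (exists_nonscalar_of_irr hΔ hirr) hℓ hgood hℓp
    hA hφ
  rw [h2] at h1
  exact_mod_cast h1.symm

/-- discriminants of integral models are nonzero -/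
theorem delta_ne_zero_of_model {E : WeierstrassCurve ℚ} (hE : E.Δ ≠ 0) {W' : WeierstrassCurve ℤ}
    (hW' : W'.IsIntegralModelOf E) : W'.Δ ≠ 0 := by
  obtain ⟨C, hC⟩ := hW'
  intro h0
  have h1 : (C • E).Δ = 0 := by
    rw [hC, WeierstrassCurve.map_Δ, h0, map_zero]
  rw [WeierstrassCurve.variableChange_Δ] at h1
  rcases mul_eq_zero.mp h1 with h2 | h2
  · exact (pow_ne_zero _ (Units.ne_zero _)) h2
  · exact hE h2

section Frey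

variable (P : FreyPackage)

/-- **(F4) FREY** -/
theorem frey_iff (hirr : P.freyCurveInt.ModRepIsIrreducible P.p) {M : ℕ} (hM : M ≠ 0) :
    P.ModularRepOfLevel M ↔ P.freyCurveInt.IsResiduallyModularOfLevel P.p M := by
  haveI : Fact P.p.Prime := ⟨P.pp⟩
  have hΔ := H26.freyCurveInt_Δ_ne_zero P
  constructor
  · rintro ⟨f, W', 𝔪, hf, hW', h𝔪, hp𝔪, hx⟩
    have hmod : W'.IsIntegralModelOf (WQ P.freyCurveInt) := by
      have h1 : WQ P.freyCurveInt = P.freyCurve := H26.freyCurveInt_map P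
      rw [h1]; exact hW'
    have hΔ' : W'.Δ ≠ 0 := by
      refine delta_ne_zero_of_model (E := WQ P.freyCurveInt) ?_ hmod
      have h1 : (WQ P.freyCurveInt).Δ = ((P.freyCurveInt.Δ : ℤ) : ℚ) :=
        WeierstrassCurve.map_Δ _ _
      rw [h1]
      exact_mod_cast hΔ
    obtain ⟨S, hS⟩ := exists_finset (W := P.freyCurveInt) (p := P.p) hΔ hM
    obtain ⟨S', hS'⟩ := exists_finset (W := W') (p := P.p) hΔ' hM
    classical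
    refine isResiduallyModular_of_almost hΔ hirr hM hf h𝔪 hp𝔪 (S ∪ S') fun ℓ hℓ hℓS => ?_
    obtain ⟨h1, h2, h3⟩ := hS ℓ hℓ (fun h => hℓS (Finset.mem_union_left _ h))
    obtain ⟨h1', -, -⟩ := hS' ℓ hℓ (fun h => hℓS (Finset.mem_union_right _ h))
    obtain ⟨a, ha, ha'⟩ := hx ℓ hℓ h1' h2 h3
    rw [apOfModel_eq hΔ hirr hmod hℓ h1 h1' h3] at ha'
    exact ⟨a, ha, ha'⟩
  · rintro ⟨f, 𝔪, hf, h𝔪, hp𝔪, hx⟩
    exact ⟨f, P.freyCurveInt, 𝔪, hf, H26.freyCurveInt_isIntegralModelOf P, h𝔪, hp𝔪, hx⟩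

/-- irreducibility for the Frey curve and its integral model -/
theorem frey_irr_iff (n : ℕ) : P.freyCurveInt.ModRepIsIrreducible n ↔
    WeierstrassCurve.Affine.Point.GaloisRepIsIrreducible (K := AlgebraicClosure ℚ) ℚ
      P.freyCurve n := by
  unfold WeierstrassCurve.ModRepIsIrreducible
  rw [H26.freyCurveInt_map]

end Frey

end Fermat.Agent.H18R
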