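import Mathlib
import Fermat.Agent.H12.LL.Top
import Fermat.Agent.H18R.Top
import Fermat.Agent.H11N.MZCurve
import Fermat.Agent.H19.NewTrace

/-!
# The inputs of the level lowering argument
-/

set_option autoImplicit false
set_option linter.unusedSectionVars false
set_option linter.style.haveILetI false

noncomputable section

namespace Fermat.Agent.H18R

open Fermat.Agent.TW Fermat.Agent.CC Fermat.Agent.Ell Fermat.Agent.H12.LL
open IsLocalRing CongruenceSubgroup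
open ModularFormClass (qCoeff)

variable {W : WeierstrassCurve ℤ} {p : ℕ} [hp : Fact p.Prime]

/-- **(F3)** in the form of `TopIn` -/
theorem newf_of (hΔ : W.Δ ≠ 0) (hirr : W.ModRepIsIrreducible p) {M : ℕ} (hM : M ≠ 0)
    (h : W.IsResiduallyModularOfLevel p M) :
    ∃ L : ℕ, L ∣ M ∧ W.IsResiduallyModularOfLevel p L ∧ ∃ (_ : NeZero L)
      (g : CuspForm (Gamma0 L) 2), g.IsNewform ∧ CongF W p g := by
  obtain ⟨L, hL, g, 𝔪, hLM, hg, h𝔪, hp𝔪, hx, hRL⟩ := exists_newform_level hΔ hirr hM h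
  exact ⟨L, hLM, hRL, hL, g, hg, 𝔪, h𝔪, hp𝔪, hx⟩

/-- **Mazur's principle**, final form -/
theorem mazur (hΔ : W.Δ ≠ 0) (hirr : W.ModRepIsIrreducible p) (hp2 : p ≠ 2) {M q : ℕ}
    (hq : q.Prime) (hq2 : q ≠ 2) (hqp : q ≠ p) (h2M : 2 ∣ M) (hsq : Squarefree (M * q))
    (hq1 : ¬ q ≡ 1 [MOD p]) (hunr : UnrAt W p q)
    (hmod : W.IsResiduallyModularOfLevel p (M * q)) : W.IsResiduallyModularOfLevel p M := by
  have hM : M ≠ 0 := fun h => hsq.ne_zero (by rw [h, zero_mul])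
  have hqM : ¬ q ∣ M := fun h => hq.not_isUnit (hsq _ (mul_dvd_mul_right h q))
  exact isResiduallyModular_of_RMs hΔ hirr hM
    (H11N.mazur_principle hΔ hirr hp2 hM h2M hq hq2 hqp hqM hq1 hunr hmod)

/-- **(K1)** in the form of `TopIn` -/
theorem sq_of_geo (hΔ : W.Δ ≠ 0) (hirr : W.ModRepIsIrreducible p) (G : H25.PT.Geo p)
    {L : ℕ} [NeZero L] {g : CuspForm (Gamma0 L) 2} (hg : g.IsNewform) (hcong : CongF W p g)
    {q : ℕ} (hq : q.Prime) (hqp : q ≠ p) (hqL : q ∣ L) (hqq : ¬ q ^ 2 ∣ L)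
    {A : ValuationSubring Qb} (hA : A.LiesOverPrime q) {φ : GQ} (hφ : A.IsFrobeniusAt φ q) :
    (PadicInt.toZMod (LinearMap.trace ℤ_[p] (TT (WQ W) p) (rr (WQ W) p φ))) ^ 2 =
      ((q : ZMod p) + 1) ^ 2 := by
  obtain ⟨𝔪, h𝔪, hp𝔪, hx⟩ := hcong
  obtain ⟨S, hS⟩ := exists_finset (W := W) (p := p) hΔ (NeZero.ne L)
  exact H19.newform_trace_sq_of_geo hΔ G hirr hg h𝔪 hp𝔪 S (fun ℓ hℓ hℓS =>
    hx ℓ hℓ (hS ℓ hℓ hℓS).1 (hS ℓ hℓ hℓS).2.1 (hS ℓ hℓ hℓS).2.2) hq hqp hqL hqq hA hφ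

/-- the inputs of the level lowering argument -/
theorem topIn_of_geo (hΔ : W.Δ ≠ 0) (hirr : W.ModRepIsIrreducible p) (hp2 : p ≠ 2)
    (G : H25.PT.Geo p) {b : Prop}
    (ll : ∀ (T : Finset Nat.Primes) (M₀ : ℕ), 2 ∣ M₀ → Squarefree M₀ → Nat.Coprime (Q0 T) M₀ →
      (p ∣ M₀ ↔ b) → (∀ q : ℕ, q.Prime → q ≠ p → q ∣ M₀ → ¬ UnrAt W p q) →
      (∀ t ∈ T, (t : ℕ) ≠ p) →
      (∀ t ∈ T, (t : ℕ) ≡ 1 [MOD p]) → (∀ t ∈ T, UnrAt W p t) →
      (∀ t ∈ T, ∀ A : ValuationSubring Qb, A.LiesOverPrime (t : ℕ) → ∀ φ : GQ,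
        A.IsFrobeniusAt φ t →
        (PadicInt.toZMod (LinearMap.trace ℤ_[p] (TT (WQ W) p) (rr (WQ W) p φ))) ^ 2 = 4) →
      W.IsResiduallyModularOfLevel p (Q0 T * M₀) → W.IsResiduallyModularOfLevel p M₀) :
    TopIn W p b where
  mono := fun h0 hd h => isResiduallyModular_mono hΔ hirr h hd h0
  newf := newf_of hΔ hirr
  sq := fun hg hcong _ hq hqp hqL hqq _ hA _ hφ => sq_of_geo hΔ hirr G hg hcong hq hqp hqL hqq hA hφ
  mz := fun hq hq2 hqp h2M hsq hq1 hunr hmod =>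
    mazur hΔ hirr hp2 hq hq2 hqp h2M hsq hq1 hunr hmod
  ll := ll

end Fermat.Agent.H18R
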