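import Mathlib
import Fermat.Agent.LM.TraceEq
import Fermat.Agent.Ell.Cond
import Fermat.Agent.S29
import Fermat.Agent.TC.Old
import Fermat.Agent.H51.QbarGalois
import Fermat.Prelude.Def_FLTPrelim_ModularRep

/-!
# Residual modularity: all primes from almost all primes
-/

set_option autoImplicit false
set_option linter.style.haveILetI false
set_option linter.unusedSectionVars false

noncomputable section

namespace Fermat.Agent.H18R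

open CongruenceSubgroup ModularFormClass IsLocalRing
open Fermat.Agent.Ell Fermat.Agent.H05

local notation "Γℚ" => AlgebraicClosure ℚ ≃ₐ[ℚ] AlgebraicClosure ℚ

/-- `ℤ_p → k` -/
def redZ (p : ℕ) [Fact p.Prime] (k : Type) [Field k] [CharP k p] : ℤ_[p] →+* k :=
  (ZMod.castHom (dvd_refl p) k).comp PadicInt.toZMod

theorem redZ_eq_zero {p : ℕ} [Fact p.Prime] {k : Type} [Field k] [CharP k p] {x : ℤ_[p]}
    (hx : x ∈ maximalIdeal ℤ_[p]) : redZ p k x = 0 := by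
  rw [← PadicInt.ker_toZMod, RingHom.mem_ker] at hx
  rw [redZ, RingHom.comp_apply, hx, map_zero]

/-- **traces agree everywhere** -/
theorem trace_eq {p : ℕ} [Fact p.Prime] {k : Type} [Field k] [CharP k p]
    (ρ : ResidualGaloisRep k) (ρ' : GaloisRepAdic ℤ_[p]) (S : Finset ℕ)
    (h : ∀ ℓ : ℕ, ℓ.Prime → ℓ ∉ S → ∀ A : ValuationSubring (AlgebraicClosure ℚ),
      A.LiesOverPrime ℓ → ∀ φ : Γℚ, A.IsFrobeniusAt φ ℓ → ∃ t d : ℤ_[p],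
        LinearMap.charpoly (ρ'.ρ φ) = Polynomial.X ^ 2 - Polynomial.C t * Polynomial.X +
          Polynomial.C d ∧
        LinearMap.charpoly (ρ.ρ φ) = Polynomial.X ^ 2 - Polynomial.C (redZ p k t) * Polynomial.X +
          Polynomial.C (redZ p k d)) (σ : Γℚ) :
    LinearMap.trace k ρ.V (ρ.ρ σ) = redZ p k (LinearMap.trace ℤ_[p] ρ'.V (ρ'.ρ σ)) := by
  obtain ⟨L₁, hL₁, h1⟩ := ρ.factorsThroughFiniteLevel
  obtain ⟨L₂, hL₂, h2⟩ := ρ'.isAdicContinuous 1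
  have : FiniteDimensional ℚ (L₁ ⊔ L₂ : IntermediateField ℚ (AlgebraicClosure ℚ)) :=
    IntermediateField.finiteDimensional_sup L₁ L₂
  obtain ⟨ℓ, hℓ, hℓS, A, hA, φ, hφ, j, hj⟩ := H25.weakChebotarev (L₁ ⊔ L₂) inferInstance S σ
  obtain ⟨t, d, e1, e2⟩ := h ℓ hℓ hℓS A hA φ hφ
  have e3 := LM.trace_sub_mem ρ' (n := 1) (L := L₂) (fun u hu v => h2 u hu v) (g := σ)
    (h := φ ^ j) (fun x hx => hj x (le_sup_right (a := L₁) hx))
  rw [pow_one] at e3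
  have e4 := redZ_eq_zero (k := k) e3
  rw [map_sub, sub_eq_zero] at e4
  rw [e4, map_pow, trace_pow_eq_lucas ρ'.finrank_eq (ρ'.ρ φ) t d e1 j, map_lucas]
  have e5 : ρ.ρ σ = ρ.ρ φ ^ j := by
    have h3 : ρ.ρ ((φ ^ j)⁻¹ * σ) = 1 := by
      apply h1
      intro x hx
      rw [AlgEquiv.mul_apply, hj x (le_sup_left (a := L₁) hx), ← AlgEquiv.mul_apply,
        inv_mul_cancel, AlgEquiv.one_apply]
    have h4 : σ = φ ^ j * ((φ ^ j)⁻¹ * σ) := by rw [mul_inv_cancel_left]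
    rw [h4, map_mul, h3, mul_one, map_pow]
  rw [e5]
  exact trace_pow_eq_lucas ρ.finrank_eq (ρ.ρ φ) _ _ e2 j

theorem redZ_intCast {p : ℕ} [Fact p.Prime] {k : Type} [Field k] [CharP k p] (n : ℤ) :
    redZ p k (n : ℤ_[p]) = n := map_intCast _ n

theorem redZ_natCast {p : ℕ} [Fact p.Prime] {k : Type} [Field k] [CharP k p] (n : ℕ) :
    redZ p k (n : ℤ_[p]) = n := map_natCast _ n

variable {W : WeierstrassCurve ℤ} {p : ℕ} [hp : Fact p.Prime]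

/-- **all good primes from almost all primes** -/
theorem fill (hΔ : W.Δ ≠ 0) (hirr : W.ModRepIsIrreducible p) {M : ℕ} (hM : M ≠ 0)
    {f : CuspForm (Gamma0 M) 2} (hf : f.IsNormalizedEigenform) {k : Type} [Field k] [CharP k p]
    (φ₀ : integralClosure ℤ ℂ →+* k) (S : Finset ℕ)
    (h : ∀ ℓ : ℕ, ℓ.Prime → ℓ ∉ S → ∃ a : integralClosure ℤ ℂ, (a : ℂ) = qCoeff f ℓ ∧
      φ₀ a = ((W.apOfModel ℓ : ℤ) : k)) {q : ℕ} (hq : q.Prime) (hgood : W.IsGoodPrimeFor q)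
    (hqM : ¬ q ∣ M) (hqp : q ≠ p) :
    ∃ a : integralClosure ℤ ℂ, (a : ℂ) = qCoeff f q ∧ φ₀ a = ((W.apOfModel q : ℤ) : k) := by
  classical
  obtain ⟨ρ, hρ, -⟩ := Fermat.Agent.S29.result hf hp.out (k := k) φ₀
  have hcp : ∀ {ℓ : ℕ}, ℓ.Prime → W.IsGoodPrimeFor ℓ → ℓ ≠ p →
      ∀ {A : ValuationSubring (AlgebraicClosure ℚ)}, A.LiesOverPrime ℓ →
      ∀ {φ : Γℚ}, A.IsFrobeniusAt φ ℓ → LinearMap.charpoly ((zRep W hΔ p).ρ φ) =
        Polynomial.X ^ 2 - Polynomial.C (W.apOfModel ℓ : ℤ_[p]) * Polynomial.X +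
          Polynomial.C (ℓ : ℤ_[p]) := by
    intro ℓ hℓ hgood hℓp A hA φ hφ
    rw [H25.charpoly_eq_of_finrank_two (zRep W hΔ p).finrank_eq]
    have h1 := zRep_trace_frob hΔ hirr hℓ hgood hℓp hA hφ
    have h2 := zRep_det_frob hΔ hirr hℓ hℓp hA hφ
    have h1' : LinearMap.trace ℤ_[p] (zRep W hΔ p).V ((zRep W hΔ p).ρ φ) =
      (W.apOfModel ℓ : ℤ_[p]) := h1
    rw [h1', h2]
  have hℓk : ∀ {ℓ : ℕ}, ℓ.Prime → ℓ ≠ p → ((ℓ : ℕ) : k) ≠ 0 := by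
    intro ℓ hℓ hℓp h0
    rw [CharP.cast_eq_zero_iff k p] at h0
    exact hℓp ((Nat.prime_dvd_prime_iff_eq hp.out hℓ).mp h0).symm
  have key := trace_eq ρ (zRep W hΔ p)
    (insert p (S ∪ (M.primeFactors ∪ W.Δ.natAbs.primeFactors))) (by
    intro ℓ hℓ hℓS A hA φ hφ
    have hℓp : ℓ ≠ p := fun h => hℓS (h ▸ Finset.mem_insert_self _ _)
    have hℓS' : ℓ ∉ S := fun h => hℓS (Finset.mem_insert_of_mem (Finset.mem_union_left _ h))
    have hℓM : ¬ ℓ ∣ M := fun h => hℓS (Finset.mem_insert_of_mem (Finset.mem_union_right _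
      (Finset.mem_union_left _ (Nat.mem_primeFactors.mpr ⟨hℓ, h, hM⟩))))
    have hgood : W.IsGoodPrimeFor ℓ := fun h => hℓS (Finset.mem_insert_of_mem
      (Finset.mem_union_right _ (Finset.mem_union_right _ (Nat.mem_primeFactors.mpr
        ⟨hℓ, Int.natCast_dvd.mp h, Int.natAbs_ne_zero.mpr hΔ⟩))))
    refine ⟨_, _, hcp hℓ hgood hℓp hA hφ, ?_⟩
    obtain ⟨a, ha, hcha⟩ := hρ ℓ hℓ hℓM (hℓk hℓ hℓp) A hA φ hφ
    obtain ⟨a', ha', hcha'⟩ := h ℓ hℓ hℓS'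
    have e1 : a = a' := Subtype.ext (ha.trans ha'.symm)
    rw [hcha, e1, hcha', redZ_intCast, redZ_natCast])
  haveI := H51.isGalois_Qbar
  obtain ⟨A, hA⟩ := exists_liesOverPrime (AlgebraicClosure ℚ) hq
  obtain ⟨φ, hφ⟩ := exists_isFrobeniusAt (L := AlgebraicClosure ℚ) hq hA
  obtain ⟨a, ha, hcha⟩ := hρ q hq hqM (hℓk hq hqp) A hA φ hφ
  refine ⟨a, ha, ?_⟩
  have e1 := trace_eq_of_charpoly ρ.finrank_eq _ _ _ hcha
  have e2 := trace_eq_of_charpoly (zRep W hΔ p).finrank_eq _ _ _ (hcp hq hgood hqp hA hφ)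
  rw [← e1, key, e2, redZ_intCast]

/-- `p` is the characteristic of the residue field -/
theorem charP_quot {𝔪 : Ideal (integralClosure ℤ ℂ)} (h𝔪 : 𝔪.IsMaximal)
    (hp𝔪 : (p : integralClosure ℤ ℂ) ∈ 𝔪) :
    letI : Field (integralClosure ℤ ℂ ⧸ 𝔪) := Ideal.Quotient.field 𝔪
    CharP (integralClosure ℤ ℂ ⧸ 𝔪) p := by
  letI : Field (integralClosure ℤ ℂ ⧸ 𝔪) := Ideal.Quotient.field 𝔪
  refine (CharP.charP_iff_prime_eq_zero hp.out).mpr ?_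
  rw [← map_natCast (Ideal.Quotient.mk 𝔪)]
  exact Ideal.Quotient.eq_zero_iff_mem.mpr hp𝔪

/-- the same with ideals -/
theorem fill_ideal (hΔ : W.Δ ≠ 0) (hirr : W.ModRepIsIrreducible p) {M : ℕ} (hM : M ≠ 0)
    {f : CuspForm (Gamma0 M) 2} (hf : f.IsNormalizedEigenform) {𝔪 : Ideal (integralClosure ℤ ℂ)}
    (h𝔪 : 𝔪.IsMaximal) (hp𝔪 : (p : integralClosure ℤ ℂ) ∈ 𝔪) (S : Finset ℕ)
    (h : ∀ ℓ : ℕ, ℓ.Prime → ℓ ∉ S → ∃ a : integralClosure ℤ ℂ, (a : ℂ) = qCoeff f ℓ ∧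
      a - ((W.apOfModel ℓ : ℤ) : integralClosure ℤ ℂ) ∈ 𝔪) {q : ℕ} (hq : q.Prime)
    (hgood : W.IsGoodPrimeFor q) (hqM : ¬ q ∣ M) (hqp : q ≠ p) :
    ∃ a : integralClosure ℤ ℂ, (a : ℂ) = qCoeff f q ∧
      a - ((W.apOfModel q : ℤ) : integralClosure ℤ ℂ) ∈ 𝔪 := by
  letI : Field (integralClosure ℤ ℂ ⧸ 𝔪) := Ideal.Quotient.field 𝔪
  haveI : CharP (integralClosure ℤ ℂ ⧸ 𝔪) p := charP_quot h𝔪 hp𝔪
  have key : ∀ (a : integralClosure ℤ ℂ) (n : ℤ),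
      Ideal.Quotient.mk 𝔪 a = ((n : ℤ) : integralClosure ℤ ℂ ⧸ 𝔪) ↔
        a - (n : integralClosure ℤ ℂ) ∈ 𝔪 := by
    intro a n
    rw [← map_intCast (Ideal.Quotient.mk 𝔪), Ideal.Quotient.eq]
  obtain ⟨a, ha, ha'⟩ := fill hΔ hirr hM hf (Ideal.Quotient.mk 𝔪) S (fun ℓ hℓ hℓS => by
    obtain ⟨a, ha, ha'⟩ := h ℓ hℓ hℓS
    exact ⟨a, ha, (key _ _).mpr ha'⟩) hq hgood hqM hqp
  exact ⟨a, ha, (key _ _).mp ha'⟩

end Fermat.Agent.H18R
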